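import Fermat.Agent.LangWeilAll.Normalise
import Fermat.Agent.ThinSets.Cohen

/-!
# A normal form for two coprime polynomials

A unimodular shear over `ℤ` makes `f` of constant leading coefficient in the first variable; the
resultant in it is then a nonzero polynomial in the others, in the ideal of `f` and `g`.
-/

set_option autoImplicit false
set_option linter.style.haveILetI false

noncomputable section

namespace FA.Ekedahl

open MvPolynomial FA.LangWeilAll

variable {r : ℕ}

theorem eval_smul_of_isHomogeneous {σ R : Type*} [CommRing R] {h : MvPolynomial σ R} {e : ℕ}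
    (hh : h.IsHomogeneous e) (t : R) (x : σ → R) : eval (t • x) h = t ^ e * eval x h := by
  rw [eval_eq, eval_eq, Finset.mul_sum]
  refine Finset.sum_congr rfl fun s hs => ?_
  have hs' : ∑ i ∈ s.support, s i = e := by
    simpa [Finsupp.weight_apply, Finsupp.sum] using hh (mem_support_iff.1 hs)
  simp only [Pi.smul_apply, smul_eq_mul, mul_pow, Finset.prod_mul_distrib,
    Finset.prod_pow_eq_pow_sum, hs']
  ring

/-- An integral direction with first entry `1` off a homogeneous hypersurface. -/
theorem exists_direction {h : MvPolynomial (Fin (r + 1)) ℚ} {e : ℕ} (hh : h.IsHomogeneous e)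
    (h0 : h ≠ 0) : ∃ v : Fin (r + 1) → ℤ, v 0 = 1 ∧ eval (fun i => (v i : ℚ)) h ≠ 0 := by
  obtain ⟨u, hu⟩ : ∃ u, eval u (X 0 * h) ≠ 0 := by
    by_contra! hno
    exact mul_ne_zero (X_ne_zero 0) h0 (MvPolynomial.funext fun u => by rw [hno u, map_zero])
  rw [map_mul, eval_X, mul_ne_zero_iff] at hu
  set q : MvPolynomial (Fin r) ℚ := aeval (Fin.cons 1 X : Fin (r + 1) → MvPolynomial (Fin r) ℚ) h
  have hq : ∀ y : Fin r → ℚ, eval y q = eval (Fin.cons 1 y : Fin (r + 1) → ℚ) h := fun y => by
    rw [eval_aeval_apply]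
    exact congrArg (fun z => eval z h) (funext (Fin.cases (by simp) fun i => by simp))
  have hq0 : q ≠ 0 := fun e0 => hu.2 (by
    have : u = u 0 • (Fin.cons 1 fun i => u i.succ / u 0 : Fin (r + 1) → ℚ) :=
      funext (Fin.cases (by simp) fun i => by simp [mul_div_cancel₀ _ hu.1])
    rw [this, eval_smul_of_isHomogeneous hh, ← hq, e0, map_zero, mul_zero])
  obtain ⟨y, hy, hy0⟩ : ∃ y ∈ Set.pi Set.univ (fun _ : Fin r => Set.range (Int.cast : ℤ → ℚ)),
      eval y q ≠ 0 := by
    by_contra! hno
    refine hq0 (MvPolynomial.funext_set _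
      (fun _ => Set.infinite_range_of_injective Int.cast_injective) fun y hy => ?_)
    rw [hno y hy, map_zero]
  choose z hz using fun i => hy i (Set.mem_univ i)
  refine ⟨Fin.cons 1 z, rfl, ?_⟩
  have : (fun i => ((Fin.cons 1 z : Fin (r + 1) → ℤ) i : ℚ)) = Fin.cons 1 y :=
    funext (Fin.cases (by simp) fun i => by simpa using hz i)
  rwa [this, ← hq]

/-- Coprime polynomials are coprime over the fraction field of the coefficients. -/
theorem isCoprime_map_of_isRelPrime {A : Type*} [CommRing A] [IsDomain A]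
    [UniqueFactorizationMonoid A] {L : Type*} [Field L] [Algebra A L] [IsFractionRing A L]
    (G : Polynomial A) (F : Polynomial A) : F ≠ 0 → IsUnit F.leadingCoeff → IsRelPrime F G →
      IsCoprime (F.map (algebraMap A L)) (G.map (algebraMap A L)) := by
  induction F using UniqueFactorizationMonoid.induction_on_prime with
  | h₁ => intro h; exact absurd rfl h
  | h₂ u hu =>
    intro _ _ _
    obtain ⟨w, hw⟩ := hu.map (Polynomial.mapRingHom (algebraMap A L))
    rw [Polynomial.coe_mapRingHom] at hw
    exact ⟨↑w⁻¹, 0, by rw [← hw, Units.inv_mul, zero_mul, add_zero]⟩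
  | h₃ a q ha hq ih =>
    intro hne hlc hrel
    rw [Polynomial.leadingCoeff_mul] at hlc
    obtain ⟨hql, hal⟩ := IsUnit.mul_iff.mp hlc
    rw [Polynomial.map_mul]
    refine IsCoprime.mul_left ?_ (ih ha hal hrel.of_mul_left_right)
    obtain ⟨u, hu⟩ := hql
    set q' := Polynomial.C (↑u⁻¹ : A) * q with hq'
    have hm : q'.Monic := by
      rw [Polynomial.Monic, hq', Polynomial.leadingCoeff_mul, Polynomial.leadingCoeff_C, ← hu,
        Units.inv_mul]
    have hass : Associated q' q := associated_unit_mul_left q _ (u⁻¹.isUnit.map Polynomial.C)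
    have hirr : Irreducible q' := hass.irreducible_iff.mpr hq.irreducible
    have hmul : q.map (algebraMap A L) =
        Polynomial.C (algebraMap A L (u : A)) * q'.map (algebraMap A L) := by
      rw [hq', Polynomial.map_mul, Polynomial.map_C, ← mul_assoc, ← Polynomial.C_mul, ← map_mul,
        Units.mul_inv, map_one, Polynomial.C_1, one_mul]
    rw [hmul, isCoprime_mul_unit_left_left ((u.isUnit.map (algebraMap A L)).map Polynomial.C)]
    refine ((hm.irreducible_iff_irreducible_map_fraction_map (K := L)).1 hirr).coprime_iff_not_dvd.2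
      fun hd => hirr.not_isUnit ?_
    exact hrel.of_mul_left_left hass.dvd
      ((Polynomial.map_dvd_map _ (IsFractionRing.injective A L) hm).1 hd)

/-- **The normal form**: after a shear, a constant leading coefficient and an eliminant. -/
theorem exists_normalForm (f g : MvPolynomial (Fin (r + 1)) ℤ) (hf : f ≠ 0)
    (hfg : IsRelPrime (f.map (Int.castRingHom ℚ)) (g.map (Int.castRingHom ℚ))) :
    ∃ (v : Fin (r + 1) → ℤ) (hv : v 0 = 1) (z : ℤ) (a b : Polynomial (MvPolynomial (Fin r) ℤ))
      (R : MvPolynomial (Fin r) ℤ), z ≠ 0 ∧ R ≠ 0 ∧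
      (finSuccEquiv ℤ r (shear v 0 1 (by rw [hv, mul_one]) 0 f)).leadingCoeff = C z ∧
      a * finSuccEquiv ℤ r (shear v 0 1 (by rw [hv, mul_one]) 0 f) +
        b * finSuccEquiv ℤ r (shear v 0 1 (by rw [hv, mul_one]) 0 g) = Polynomial.C R := by
  set φ := Int.castRingHom ℚ
  have hφ : Function.Injective φ := Int.cast_injective
  have hfQ : f.map φ ≠ 0 := fun h => hf (map_injective φ hφ (h.trans (map_zero _).symm))
  set e := (f.map φ).totalDegree
  obtain ⟨v, hv, htop⟩ := exists_direction (homogeneousComponent_isHomogeneous e (f.map φ))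
    (homogeneousComponent_totalDegree_ne_zero hfQ)
  have hv1 : v 0 * 1 = 1 := by rw [hv, mul_one]
  have hvQ : (fun i => (v i : ℚ)) 0 * (1 : ℚ) = 1 := by simp [hv]
  set vQ : Fin (r + 1) → ℚ := fun i => (v i : ℚ)
  set F := finSuccEquiv ℤ r (shear v 0 1 hv1 0 f)
  set G := finSuccEquiv ℤ r (shear v 0 1 hv1 0 g)
  set S := fun p => finSuccEquiv ℚ r (shear vQ 0 1 hvQ 0 p)
  have hmap : ∀ p : MvPolynomial (Fin (r + 1)) ℤ,
      (finSuccEquiv ℤ r (shear v 0 1 hv1 0 p)).map (MvPolynomial.map φ) = S (p.map φ) := fun p => by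
    rw [map_finSuccEquiv, map_shear]
    simp only [S, vQ]
    congr! 2
  set t := eval vQ (homogeneousComponent e (f.map φ))
  have hdeg1 : (C t⁻¹ * f.map φ).totalDegree = e := by
    rw [← smul_eq_C_mul, totalDegree, support_smul_eq (inv_ne_zero htop)]
    rfl
  have hmon := (monic_shear (f := C t⁻¹ * f.map φ) hvQ 0 (by
    rw [hdeg1, homogeneousComponent_C_mul, map_mul, eval_C, inv_mul_cancel₀ htop])).1
  have hlcQ : (S (f.map φ)).leadingCoeff = C t := by
    have h1 : finSuccEquiv ℚ r (shear vQ 0 1 hvQ 0 (C t⁻¹ * f.map φ)) =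
        Polynomial.C (C t⁻¹) * S (f.map φ) := by
      rw [map_mul, map_mul]
      congr 1
      simp [shear_apply, finSuccEquiv_apply]
    rw [h1, Polynomial.Monic, Polynomial.leadingCoeff_mul, Polynomial.leadingCoeff_C] at hmon
    calc (S (f.map φ)).leadingCoeff = C (t * t⁻¹) * (S (f.map φ)).leadingCoeff := by
          rw [mul_inv_cancel₀ htop, map_one, one_mul]
      _ = C t := by rw [map_mul, mul_assoc, hmon, mul_one]
  have hinj : Function.Injective (MvPolynomial.map φ : MvPolynomial (Fin r) ℤ →+* _) :=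
    map_injective φ hφ
  have hlc : (MvPolynomial.map φ) F.leadingCoeff = C t := by
    rw [← Polynomial.leadingCoeff_map_of_injective hinj, hmap, hlcQ]
  have hz : F.leadingCoeff = C (F.leadingCoeff.coeff 0) := by
    refine hinj ?_
    rw [map_C, hlc]
    congr 1
    rw [← coeff_map, hlc, coeff_zero_C]
  have hz0 : F.leadingCoeff.coeff 0 ≠ 0 := fun h0 => by
    rw [hz, h0, map_zero, map_zero] at hlc
    exact htop (C_injective _ _ (hlc.symm.trans (map_zero C).symm))
  have hF0 : F ≠ 0 := fun h0 => hz0 (by rw [h0, Polynomial.leadingCoeff_zero, coeff_zero])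
  by_cases hdeg : F.natDegree = 0
  · refine ⟨v, hv, _, 1, 0, F.coeff 0, hz0, fun h0 => hF0 ?_, hz, ?_⟩
    · exact (Polynomial.eq_C_of_natDegree_eq_zero hdeg).trans (by rw [h0, map_zero])
    · rw [one_mul, zero_mul, add_zero]
      exact Polynomial.eq_C_of_natDegree_eq_zero hdeg
  obtain ⟨a, b, -, -, hab⟩ :=
    Polynomial.exists_mul_add_mul_eq_C_resultant F G le_rfl le_rfl (Or.inl hdeg)
  refine ⟨v, hv, _, a, b, _, hz0, fun h0 => ?_, hz, by rw [mul_comm a, mul_comm b, hab]⟩
  set L := FractionRing (MvPolynomial (Fin r) ℚ)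
  have hcop : IsCoprime ((S (f.map φ)).map (algebraMap _ L))
      ((S (g.map φ)).map (algebraMap _ L)) := by
    refine isCoprime_map_of_isRelPrime _ _ (fun h => ?_) ?_ ?_
    · rw [h, Polynomial.leadingCoeff_zero] at hlcQ
      exact htop (C_injective _ _ (hlcQ.symm.trans (map_zero C).symm))
    · rw [hlcQ]
      exact (Ne.isUnit htop).map C
    · intro d hd1 hd2
      set Φ := (shear vQ 0 1 hvQ 0).trans (finSuccEquiv ℚ r)
      have h1 : Φ.symm d ∣ f.map φ := by simpa [S, Φ] using map_dvd Φ.symm hd1
      have h2 : Φ.symm d ∣ g.map φ := by simpa [S, Φ] using map_dvd Φ.symm hd2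
      simpa using (hfg h1 h2).map Φ
  have hres := Polynomial.resultant_ne_zero _ _ hcop
  have hcomp : Function.Injective
      ((algebraMap (MvPolynomial (Fin r) ℚ) L).comp (MvPolynomial.map φ)) :=
    (IsFractionRing.injective _ L).comp hinj
  rw [← hmap f, ← hmap g, Polynomial.map_map, Polynomial.map_map, Polynomial.resultant_map_map,
    Polynomial.natDegree_map_eq_of_injective hcomp,
    Polynomial.natDegree_map_eq_of_injective hcomp] at hres
  exact hres (by rw [h0, map_zero])

end FA.Ekedahl
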