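import Fermat.Agent.Ekedahl.Boxes
import Fermat.Agent.Ekedahl.Eliminant

/-!
# Ekedahl's bound

In normal form a prime `p ≤ B` dividing both values costs `O (B ^ n / p ^ 2)` points and the
primes above `B` cost `O (B ^ (n - 1))` together, as few of them divide the eliminant.
-/

set_option autoImplicit false
set_option linter.style.openClassical false
set_option linter.style.haveILetI false

noncomputable section

open scoped Classical

namespace FA.Ekedahl

open MvPolynomial FA.ThinSets FA.DiagonalDensity FA.LangWeilAll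

variable {n r : ℕ}

/-- The points at which a prime above `M` divides both values. -/
def badPoints (f g : MvPolynomial (Fin n) ℤ) (M B : ℕ) : Finset (Fin n → ℤ) :=
  (intBox n B).filter fun x =>
    ∃ p : ℕ, p.Prime ∧ M < p ∧ (p : ℤ) ∣ eval x f ∧ (p : ℤ) ∣ eval x g

theorem card_badPoints_trivial (f g : MvPolynomial (Fin n) ℤ) {M B M₀ : ℕ} (hM : 1 ≤ M)
    (hB : 1 ≤ B) (hMM : M ≤ M₀) :
    ((badPoints f g M B).card : ℝ) ≤ 3 ^ n * M₀ * ((B : ℝ) ^ n / M) := by
  have hB' : (1 : ℝ) ≤ B := Nat.one_le_cast.mpr hB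
  have hM' : (1 : ℝ) ≤ M := Nat.one_le_cast.mpr hM
  calc ((badPoints f g M B).card : ℝ) ≤ (2 * (B : ℝ) + 1) ^ n := by
        rw [← natCard_intBox]
        exact Nat.cast_le.mpr (Finset.card_filter_le _ _)
    _ ≤ (3 * (B : ℝ)) ^ n := pow_le_pow_left₀ (by positivity) (by linarith) n
    _ ≤ (3 * (B : ℝ)) ^ n * ((M₀ : ℝ) / M) := le_mul_of_one_le_right (by positivity)
        ((one_le_div₀ (by linarith)).mpr (Nat.cast_le.mpr hMM))
    _ = _ := by rw [mul_pow]; ring

/-- The points of one fibre at which `p` divides the value. -/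
theorem card_fibre_le {f : MvPolynomial (Fin (r + 1)) ℤ} {z : ℤ}
    (hlc : (finSuccEquiv ℤ r f).leadingCoeff = C z) {p : ℕ} [Fact p.Prime] (hz : ¬(p : ℤ) ∣ z)
    (x : Fin r → ℤ) (B : ℕ) :
    ((Finset.Icc (-(B : ℤ)) B).filter fun t => (p : ℤ) ∣ eval (Fin.cons t x) f).card ≤
      (finSuccEquiv ℤ r f).natDegree * (2 * B / p + 1) := by
  set F := finSuccEquiv ℤ r f
  set φ : MvPolynomial (Fin r) ℤ →+* ZMod p := (Int.castRingHom (ZMod p)).comp (eval x)
  have hzp : φ F.leadingCoeff ≠ 0 := by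
    simpa [φ, F, hlc] using fun h => hz ((ZMod.intCast_zmod_eq_zero_iff_dvd _ p).mp h)
  have hne : F.map φ ≠ 0 := fun h => hzp (by
    have h' := congrArg (Polynomial.coeff · F.natDegree) h
    simpa [Polynomial.coeff_map] using h')
  have hsub : ((Finset.Icc (-(B : ℤ)) B).filter fun t => (p : ℤ) ∣ eval (Fin.cons t x) f) ⊆
      (F.map φ).roots.toFinset.biUnion fun c =>
        (Finset.Icc (-(B : ℤ)) B).filter fun t : ℤ => (t : ZMod p) = c := fun t ht => by
    obtain ⟨ht, hdvd⟩ := Finset.mem_filter.mp ht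
    refine Finset.mem_biUnion.mpr ⟨(t : ZMod p), ?_, Finset.mem_filter.mpr ⟨ht, rfl⟩⟩
    rw [Multiset.mem_toFinset, Polynomial.mem_roots hne, Polynomial.IsRoot, ← Polynomial.map_map,
      ← eq_intCast (Int.castRingHom (ZMod p)) t, Polynomial.eval_map, Polynomial.eval₂_at_apply,
      ← eval_eq_eval_mv_eval', eq_intCast]
    exact (ZMod.intCast_zmod_eq_zero_iff_dvd _ p).mpr hdvd
  refine (Finset.card_le_card hsub).trans (Finset.card_biUnion_le.trans ?_)
  refine (Finset.sum_le_card_nsmul _ _ (2 * B / p + 1) fun c _ => card_Icc_class_le c B).trans ?_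
  rw [smul_eq_mul]
  exact Nat.mul_le_mul_right _ ((Multiset.toFinset_card_le _).trans
    ((Polynomial.card_roots' _).trans (Polynomial.natDegree_map_le)))

theorem eval_eliminant {f g : MvPolynomial (Fin (r + 1)) ℤ}
    {a b : Polynomial (MvPolynomial (Fin r) ℤ)} {R : MvPolynomial (Fin r) ℤ}
    (hab : a * finSuccEquiv ℤ r f + b * finSuccEquiv ℤ r g = Polynomial.C R) {q : ℤ} {t : ℤ}
    {x : Fin r → ℤ} (hf : q ∣ eval (Fin.cons t x) f) (hg : q ∣ eval (Fin.cons t x) g) :
    q ∣ eval x R := by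
  have h := congrArg (fun P => Polynomial.eval t (Polynomial.map (eval x) P)) hab
  simp only [Polynomial.map_add, Polynomial.map_mul, Polynomial.eval_add, Polynomial.eval_mul,
    Polynomial.map_C, Polynomial.eval_C] at h
  rw [← eval_eq_eval_mv_eval', ← eval_eq_eval_mv_eval'] at h
  exact h ▸ dvd_add (hf.mul_left _) (hg.mul_left _)

/-- **The bound in normal form.** -/
theorem normal_bound {f g : MvPolynomial (Fin (r + 1)) ℤ} {z : ℤ} (hz : z ≠ 0)
    (hlc : (finSuccEquiv ℤ r f).leadingCoeff = C z)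
    {a b : Polynomial (MvPolynomial (Fin r) ℤ)} {R : MvPolynomial (Fin r) ℤ} (hR : R ≠ 0)
    (hab : a * finSuccEquiv ℤ r f + b * finSuccEquiv ℤ r g = Polynomial.C R) :
    ∃ K : ℝ, 0 ≤ K ∧ ∀ M B : ℕ, 1 ≤ M → 1 ≤ B →
      ((badPoints f g M B).card : ℝ) ≤ K * ((B : ℝ) ^ (r + 1) / M + (B : ℝ) ^ r) := by
  obtain ⟨s₀, hs₀⟩ := exists_coeff_ne_zero hR
  set M₀ := z.natAbs + (R.coeff s₀).natAbs
  set d := R.totalDegree
  set e := (finSuccEquiv ℤ r f).natDegree
  set H := ∑ s ∈ R.support, (R.coeff s).natAbs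
  refine ⟨3 ^ (r + 1) * M₀ + 3 ^ r * d + 3 ^ (r + 1) * e * d + 3 ^ r * 2 * e * (d + H),
    by positivity, fun M B hM hB => ?_⟩
  have hB' : (1 : ℝ) ≤ B := Nat.one_le_cast.mpr hB
  have hA : (0 : ℝ) ≤ (B : ℝ) ^ (r + 1) / M := by positivity
  have hC : (0 : ℝ) ≤ (B : ℝ) ^ r := by positivity
  have hk : ∀ {k : ℕ}, (2 * (B : ℝ) + 1) ^ k ≤ 3 ^ k * (B : ℝ) ^ k := fun {k} => by
    rw [← mul_pow]
    exact pow_le_pow_left₀ (by positivity) (by linarith) k
  rcases lt_or_ge M M₀ with hMM | hMM
  · refine (card_badPoints_trivial f g hM hB hMM.le).trans ?_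
    refine mul_le_mul ?_ (le_add_of_nonneg_right hC) hA (by positivity)
    have : (0 : ℝ) ≤ 3 ^ r * d + 3 ^ (r + 1) * e * d + 3 ^ r * 2 * e * (d + H) := by positivity
    linarith
  -- the good primes
  have hgood : ∀ p : ℕ, p.Prime → M < p → ¬(p : ℤ) ∣ z ∧
      R.map (Int.castRingHom (ZMod p)) ≠ 0 := fun p hp hMp => by
    refine ⟨fun h => ?_, fun h => ?_⟩
    · have := Int.natAbs_le_of_dvd_ne_zero h hz
      rw [Int.natAbs_natCast] at this
      omega
    · have h1 := congrArg (coeff s₀) h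
      rw [coeff_map, coeff_zero, eq_intCast, ZMod.intCast_zmod_eq_zero_iff_dvd] at h1
      have := Int.natAbs_le_of_dvd_ne_zero h1 hs₀
      rw [Int.natAbs_natCast] at this
      omega
  set S₁ := (intBox (r + 1) B).filter fun y => eval (Fin.tail y) R = 0
  set S₂ := fun p : ℕ => (intBox (r + 1) B).filter fun y =>
    (p : ℤ) ∣ eval y f ∧ (p : ℤ) ∣ eval (Fin.tail y) R
  set S₃ := (intBox (r + 1) B).filter fun y => eval (Fin.tail y) R ≠ 0 ∧
    ∃ p ∈ (eval (Fin.tail y) R).natAbs.primeFactors.filter (fun p => B < p ∧ M < p),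
      (p : ℤ) ∣ eval y f
  set T := (Finset.Ioc M B).filter Nat.Prime
  have hsub : badPoints f g M B ⊆ S₁ ∪ T.biUnion S₂ ∪ S₃ := fun y hy => by
    obtain ⟨hy, p, hp, hMp, hf, hg⟩ := Finset.mem_filter.mp hy
    rw [← Fin.cons_self_tail y] at hf hg
    have hdvd := eval_eliminant hab hf hg
    rw [Fin.cons_self_tail] at hf
    by_cases hR0 : eval (Fin.tail y) R = 0
    · exact Finset.mem_union_left _ (Finset.mem_union_left _ (Finset.mem_filter.mpr ⟨hy, hR0⟩))
    rcases le_or_gt p B with hle | hlt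
    · exact Finset.mem_union_left _ (Finset.mem_union_right _ (Finset.mem_biUnion.mpr ⟨p,
        Finset.mem_filter.mpr ⟨Finset.mem_Ioc.mpr ⟨hMp, hle⟩, hp⟩,
        Finset.mem_filter.mpr ⟨hy, hf, hdvd⟩⟩))
    · exact Finset.mem_union_right _ (Finset.mem_filter.mpr ⟨hy, hR0, p, Finset.mem_filter.mpr
        ⟨Nat.mem_primeFactors.mpr ⟨hp, Int.natCast_dvd.mp hdvd, Int.natAbs_ne_zero.mpr hR0⟩,
          hlt, hMp⟩, hf⟩)
  have h1 : (S₁.card : ℝ) ≤ 3 ^ r * d * (B : ℝ) ^ r := by
    have : S₁.card ≤ d * (2 * B + 1) ^ r := by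
      simp only [S₁]
      rw [card_filter_intBox_succ]
      simp only [Fin.tail_cons, Finset.filter_const]
      calc ∑ x ∈ intBox r B, (if eval x R = 0 then Finset.Icc (-(B : ℤ)) B else ∅).card
          = ((intBox r B).filter fun x => eval x R = 0).card * (2 * B + 1) := by
            rw [← Finset.sum_const_nat (m := 2 * B + 1) fun x _ => rfl, Finset.sum_filter]
            refine Finset.sum_congr rfl fun x _ => ?_
            split_ifs
            · rw [Int.card_Icc]; omega
            · rfl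
        _ ≤ _ := card_zeros_box_mul_le hR B
    have h' : (S₁.card : ℝ) ≤ d * (2 * (B : ℝ) + 1) ^ r := by exact_mod_cast this
    exact h'.trans ((mul_le_mul_of_nonneg_left hk (by positivity)).trans_eq (by ring))
  have h2 : ∀ p ∈ T,
      ((S₂ p).card : ℝ) ≤ 3 ^ (r + 1) * e * d * (B : ℝ) ^ (r + 1) * ((p : ℝ) ^ 2)⁻¹ :=
    fun p hp => by
    obtain ⟨hp, hpr⟩ := Finset.mem_filter.mp hp
    obtain ⟨hMp, hpB⟩ := Finset.mem_Ioc.mp hp
    haveI : Fact p.Prime := ⟨hpr⟩
    obtain ⟨hpz, hRp⟩ := hgood p hpr hMp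
    set Z := Finset.univ.filter fun u : Fin r → ZMod p =>
      eval u (R.map (Int.castRingHom (ZMod p))) = 0
    have hZ := card_zeros_mod_mul_le hRp
    have hN : (S₂ p).card ≤ Z.card * (2 * B / p + 1) ^ r * (e * (2 * B / p + 1)) := by
      simp only [S₂]
      rw [card_filter_intBox_succ]
      calc _ ≤ ∑ x ∈ intBox r B, if reduce p x ∈ Z then e * (2 * B / p + 1) else 0 := by
            refine Finset.sum_le_sum fun x _ => ?_
            split_ifs with hx
            · exact (Finset.card_le_card fun t ht => Finset.mem_filter.mpr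
                ⟨(Finset.mem_filter.mp ht).1, (Finset.mem_filter.mp ht).2.1⟩).trans
                  (card_fibre_le hlc hpz x B)
            · rw [Nat.le_zero, Finset.card_eq_zero, Finset.filter_eq_empty_iff]
              intro t _ ⟨_, ht⟩
              rw [Fin.tail_cons] at ht
              refine hx (Finset.mem_filter.mpr ⟨Finset.mem_univ _, ?_⟩)
              rw [eval_map, show reduce p x = (Int.castRingHom (ZMod p)) ∘ x from rfl,
                ← eval₂_comp, eq_intCast]
              exact (ZMod.intCast_zmod_eq_zero_iff_dvd _ p).mpr ht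
        _ ≤ _ := by
            rw [← Finset.sum_filter, Finset.sum_const, smul_eq_mul]
            exact Nat.mul_le_mul_right _ (card_intBox_class_le Z B)
    have hp0 : (0 : ℝ) < p := Nat.cast_pos.mpr hpr.pos
    have hu : ((2 * B / p + 1 : ℕ) : ℝ) ≤ 3 * B / p := by
      push_cast
      have := (Nat.cast_div_le : ((2 * B / p : ℕ) : ℝ) ≤ _)
      push_cast at this
      rw [le_div_iff₀ hp0]
      rw [le_div_iff₀ hp0] at this
      have : (p : ℝ) ≤ B := Nat.cast_le.mpr hpB
      nlinarith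
    have hZ' : (Z.card : ℝ) ≤ d * (p : ℝ) ^ r / p := by
      rw [le_div_iff₀ hp0]
      exact_mod_cast hZ
    calc ((S₂ p).card : ℝ)
        ≤ (Z.card : ℝ) * ((2 * B / p + 1 : ℕ) : ℝ) ^ r * ((e : ℝ) * ((2 * B / p + 1 : ℕ) : ℝ)) :=
          by exact_mod_cast hN
      _ ≤ d * (p : ℝ) ^ r / p * (3 * B / p) ^ r * (e * (3 * B / p)) := by gcongr
      _ = _ := by
          rw [div_pow, mul_pow]
          field_simp
          ring
  have h3 : (S₃.card : ℝ) ≤ 3 ^ r * 2 * e * (d + H) * (B : ℝ) ^ r := by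
    have : S₃.card ≤ (2 * B + 1) ^ r * ((d + H) * (e * 2)) := by
      simp only [S₃]
      rw [card_filter_intBox_succ]
      refine (Finset.sum_le_card_nsmul _ _ ((d + H) * (e * 2)) fun x hx => ?_).trans_eq
        (by rw [card_intBox, smul_eq_mul])
      simp only [Fin.tail_cons]
      by_cases hx0 : eval x R = 0
      · simp [hx0]
      set P := (eval x R).natAbs.primeFactors.filter fun p => B < p ∧ M < p
      have hP : P.card ≤ d + H := by
        refine le_trans (Finset.card_le_card fun p hp => ?_)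
          (card_large_primes_le (Int.natAbs_ne_zero.mpr hx0) hB (natAbs_eval_le R hB hx))
        exact Finset.mem_filter.mpr
          ⟨(Finset.mem_filter.mp hp).1, (Finset.mem_filter.mp hp).2.1⟩
      calc _ ≤ (P.biUnion fun p => (Finset.Icc (-(B : ℤ)) B).filter fun t =>
            (p : ℤ) ∣ eval (Fin.cons t x) f).card := Finset.card_le_card fun t ht => by
            obtain ⟨ht, -, p, hp, hdvd⟩ := Finset.mem_filter.mp ht
            exact Finset.mem_biUnion.mpr ⟨p, hp, Finset.mem_filter.mpr ⟨ht, hdvd⟩⟩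
        _ ≤ P.card * (e * 2) := by
            refine Finset.card_biUnion_le.trans
              ((Finset.sum_le_card_nsmul _ _ _ fun p hp => ?_).trans_eq (smul_eq_mul _ _))
            obtain ⟨hp1, hp2, hp3⟩ := Finset.mem_filter.mp hp
            haveI : Fact p.Prime := ⟨Nat.prime_of_mem_primeFactors hp1⟩
            refine (card_fibre_le hlc (hgood p Fact.out hp3).1 x B).trans (Nat.mul_le_mul_left _ ?_)
            have h' : 2 * B / p < 2 := (Nat.div_lt_iff_lt_mul (by omega)).mpr (by omega)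
            omega
        _ ≤ _ := Nat.mul_le_mul_right _ hP
    have h' : (S₃.card : ℝ) ≤ (2 * (B : ℝ) + 1) ^ r * (((d : ℝ) + H) * (e * 2)) := by
      exact_mod_cast this
    exact h'.trans ((mul_le_mul_of_nonneg_right hk (by positivity)).trans_eq (by ring))
  have h2' : ((T.biUnion S₂).card : ℝ) ≤ 3 ^ (r + 1) * e * d * ((B : ℝ) ^ (r + 1) / M) := by
    refine (Nat.cast_le.mpr Finset.card_biUnion_le).trans ?_
    rw [Nat.cast_sum]
    refine (Finset.sum_le_sum h2).trans ?_
    rw [← Finset.mul_sum, div_eq_mul_inv, ← mul_assoc]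
    refine mul_le_mul_of_nonneg_left ?_ (by positivity)
    refine (Finset.sum_le_sum_of_subset_of_nonneg (Finset.filter_subset _ _)
      fun p _ _ => by positivity).trans ?_
    rcases le_or_gt M B with h | h
    · exact (sum_Ioc_inv_sq_le_sub (α := ℝ) (by omega) h).trans (sub_le_self _ (by positivity))
    · rw [Finset.Ioc_eq_empty (by omega), Finset.sum_empty]
      positivity
  have hcard := (Nat.cast_le (α := ℝ)).mpr ((Finset.card_le_card hsub).trans
    ((Finset.card_union_le _ _).trans (Nat.add_le_add_right (Finset.card_union_le _ _) _)))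
  push_cast at hcard
  have hM₀ : (0 : ℝ) ≤ M₀ := Nat.cast_nonneg _
  have e1 : (0 : ℝ) ≤ 3 ^ (r + 1) * M₀ := by positivity
  have e2 : (0 : ℝ) ≤ 3 ^ (r + 1) * e * d := by positivity
  have e3 : (0 : ℝ) ≤ 3 ^ r * d := by positivity
  have e4 : (0 : ℝ) ≤ 3 ^ r * 2 * e * (d + H) := by positivity
  nlinarith [mul_nonneg e1 (add_nonneg hA hC), mul_nonneg e3 hA, mul_nonneg e4 hA, mul_nonneg e2 hC]

/-- **Ekedahl's bound.** -/
theorem exists_bound {n : ℕ} (f g : MvPolynomial (Fin n) ℤ)
    (hfg : IsRelPrime (f.map (Int.castRingHom ℚ)) (g.map (Int.castRingHom ℚ))) :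
    ∃ K : ℝ, 0 ≤ K ∧ ∀ M B : ℕ, 1 ≤ M → 1 ≤ B →
      ((badPoints f g M B).card : ℝ) ≤ K * ((B : ℝ) ^ n / M + (B : ℝ) ^ (n - 1)) := by
  rcases n with _ | r
  · refine ⟨1, zero_le_one, fun M B hM hB => ?_⟩
    have : ((badPoints f g M B).card : ℝ) ≤ 1 :=
      Nat.cast_le_one.mpr ((Finset.card_filter_le _ _).trans (by rw [card_intBox, pow_zero]))
    refine this.trans ?_
    simp
  by_cases hf : f = 0
  · obtain ⟨c, hc, hgc⟩ : ∃ c : ℤ, c ≠ 0 ∧ g = C c := by
      rw [hf, map_zero] at hfg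
      have hu : IsUnit (g.map (Int.castRingHom ℚ)) := isRelPrime_zero_left.mp hfg
      obtain ⟨q, hq, hgq⟩ := isUnit_iff_eq_C_of_isReduced.mp hu
      refine ⟨g.coeff 0, fun h0 => hq.ne_zero ?_,
        map_injective (Int.castRingHom ℚ) Int.cast_injective ?_⟩
      · have := congrArg (coeff 0) hgq
        rw [coeff_map, h0, map_zero, coeff_zero_C] at this
        exact this.symm
      · rw [map_C, hgq, ← coeff_map, hgq, coeff_zero_C]
    refine ⟨3 ^ (r + 1) * c.natAbs, by positivity, fun M B hM hB => ?_⟩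
    rcases le_or_gt c.natAbs M with h | h
    · have : badPoints f g M B = ∅ := Finset.filter_eq_empty_iff.mpr fun x _ ⟨p, hp, hMp, _, hg⟩ =>
        by
        rw [hgc, eval_C] at hg
        have := Int.natAbs_le_of_dvd_ne_zero hg hc
        rw [Int.natAbs_natCast] at this
        omega
      rw [this, Finset.card_empty, Nat.cast_zero]
      positivity
    · exact (card_badPoints_trivial f g hM hB h.le).trans
        (mul_le_mul_of_nonneg_left (le_add_of_nonneg_right (by positivity)) (by positivity))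
  obtain ⟨v, hv, z, a, b, R, hz, hR, hlc, hab⟩ := exists_normalForm f g hf hfg
  obtain ⟨K, hK, hbound⟩ := normal_bound hz hlc hR hab
  set L := 1 + ∑ i, (v i).natAbs
  refine ⟨K * (L : ℝ) ^ (r + 1), by positivity, fun M B hM hB => ?_⟩
  have hv1 : v 0 * 1 = 1 := by rw [hv, mul_one]
  set T' : (Fin (r + 1) → ℤ) → Fin (r + 1) → ℤ := fun x =>
    Fin.cons (x 0) fun i => x i.succ - v i.succ * x 0
  have hval : ∀ x p, eval (T' x) (shear v 0 1 hv1 0 p) = eval x p := fun x p => by
    rw [shear_apply, eval_aeval_apply]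
    refine congrArg (fun w => eval w p) (funext (Fin.cases ?_ fun i => ?_)) <;>
      simp [T', shearMap, hv]
  have hinj : Function.Injective T' := fun x y h => by
    have h0 : x 0 = y 0 := by simpa [T'] using congrFun h 0
    refine funext (Fin.cases h0 fun i => ?_)
    simpa [T', h0] using congrFun h i.succ
  have hle : (badPoints f g M B).card ≤ (badPoints (shear v 0 1 hv1 0 f)
      (shear v 0 1 hv1 0 g) M (L * B)).card := by
    refine Finset.card_le_card_of_injOn T' (fun x hx => ?_) fun x _ y _ h => hinj h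
    obtain ⟨hx, p, hp, hMp, h1, h2⟩ := Finset.mem_filter.mp hx
    refine Finset.mem_filter.mpr ⟨mem_intBox.mpr fun i => ?_, p, hp, hMp,
      by rwa [hval], by rwa [hval]⟩
    have hxi := mem_intBox.mp hx
    refine Fin.cases ?_ (fun j => ?_) i
    · simp only [T', Fin.cons_zero]
      refine (hxi 0).trans ?_
      exact_mod_cast Nat.le_mul_of_pos_left B (by omega : 0 < L)
    · simp only [T', Fin.cons_succ]
      refine (abs_sub _ _).trans ?_
      rw [abs_mul]
      have h3 : (v j.succ).natAbs ≤ ∑ i, (v i).natAbs :=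
        Finset.single_le_sum (f := fun i => (v i).natAbs) (fun i _ => Nat.zero_le _)
          (Finset.mem_univ _)
      have h4 : |v j.succ| * |x 0| ≤ ((∑ i, (v i).natAbs : ℕ) : ℤ) * B :=
        mul_le_mul (by rw [Int.abs_eq_natAbs]; exact_mod_cast h3) (hxi 0) (abs_nonneg _)
          (Int.natCast_nonneg _)
      have := hxi j.succ
      simp only [L]
      push_cast at h4 ⊢
      linarith
  refine (Nat.cast_le.mpr hle).trans ((hbound M (L * B) hM
    (Nat.one_le_iff_ne_zero.mpr (mul_ne_zero (by omega) (by omega)))).trans ?_)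
  rw [mul_assoc K, Nat.add_sub_cancel]
  refine mul_le_mul_of_nonneg_left ?_ hK
  push_cast
  rw [mul_add ((L : ℝ) ^ (r + 1)), mul_pow, mul_pow, mul_div_assoc]
  refine add_le_add le_rfl (mul_le_mul_of_nonneg_right (pow_le_pow_right₀ ?_ (by omega))
    (by positivity))
  exact Nat.one_le_cast.mpr (by omega)

end FA.Ekedahl
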