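import Fermat.Agent.DiagonalDensity.Classes
import Fermat.Agent.LangWeilAll.Count
import Fermat.Agent.ThinSets.Cohen

/-!
# Counting in boxes around the origin

Congruence conditions in the box `[-B, B] ^ n`, the zeros of a polynomial modulo a prime or over
`ℤ`, and the size of a value.
-/

set_option autoImplicit false
set_option linter.style.openClassical false
set_option linter.style.haveILetI false

noncomputable section

open Filter
open scoped Classical Topology

namespace FA.Ekedahl

open FA.ThinSets FA.DiagonalDensity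

variable {n : ℕ}

theorem natCard_intBox (n B : ℕ) : ((intBox n B).card : ℝ) = (2 * (B : ℝ) + 1) ^ n := by
  rw [card_intBox]
  push_cast
  rfl

/-- The first coordinate split off. -/
theorem card_filter_intBox_succ (r B : ℕ) (P : (Fin (r + 1) → ℤ) → Prop) [DecidablePred P] :
    ((intBox (r + 1) B).filter P).card = ∑ x ∈ intBox r B,
      ((Finset.Icc (-(B : ℤ)) B).filter fun t => P (Fin.cons t x)).card := by
  rw [← Finset.card_sigma]
  refine Finset.card_nbij' (fun y => ⟨Fin.tail y, y 0⟩) (fun s => Fin.cons s.2 s.1)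
    (fun y hy => ?_) (fun s hs => ?_) (fun y _ => Fin.cons_self_tail y) fun s _ => by simp
  · obtain ⟨hy, hP⟩ := Finset.mem_filter.mp hy
    have h := Fintype.mem_piFinset.mp hy
    exact Finset.mem_sigma.mpr ⟨Fintype.mem_piFinset.mpr fun i => h i.succ,
      Finset.mem_filter.mpr ⟨h 0, by rwa [Fin.cons_self_tail]⟩⟩
  · obtain ⟨hx, ht⟩ := Finset.mem_sigma.mp hs
    obtain ⟨ht, hP⟩ := Finset.mem_filter.mp ht
    exact Finset.mem_filter.mpr ⟨Fintype.mem_piFinset.mpr
      (Fin.cases (by simpa using ht) fun i => by simpa using Fintype.mem_piFinset.mp hx i), hP⟩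

/-- An interval meets a class in few points. -/
theorem card_Icc_class_le {p : ℕ} (c : ZMod p) (B : ℕ) :
    (((Finset.Icc (-(B : ℤ)) B).filter fun t : ℤ => (t : ZMod p) = c).card) ≤ 2 * B / p + 1 := by
  refine (Finset.card_le_card_of_injOn (fun t : ℤ => ((t + B).toNat / p))
    (t := Finset.range (2 * B / p + 1)) (fun t ht => ?_) fun t ht u hu h => ?_).trans_eq
      (Finset.card_range _)
  · obtain ⟨h1, -⟩ := Finset.mem_filter.mp ht
    rw [Finset.mem_Icc] at h1
    exact Finset.mem_range.mpr (Nat.lt_succ_of_le (Nat.div_le_div_right (by omega)))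
  · obtain ⟨h1, ht⟩ := Finset.mem_filter.mp ht
    obtain ⟨h2, hu⟩ := Finset.mem_filter.mp hu
    rw [Finset.mem_Icc] at h1 h2
    have h3 : (t + B).toNat % p = (u + B).toNat % p := by
      refine (ZMod.natCast_eq_natCast_iff' _ _ p).mp ?_
      have e1 : (((t + B).toNat : ℕ) : ZMod p) = ((t + B : ℤ) : ZMod p) := by
        rw [← Int.cast_natCast, Int.toNat_of_nonneg (by omega)]
      have e2 : (((u + B).toNat : ℕ) : ZMod p) = ((u + B : ℤ) : ZMod p) := by
        rw [← Int.cast_natCast, Int.toNat_of_nonneg (by omega)]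
      rw [e1, e2, Int.cast_add, Int.cast_add, ht, hu]
    have h4 : (t + B).toNat = (u + B).toNat := by
      rw [← Nat.div_add_mod (t + B).toNat p, ← Nat.div_add_mod (u + B).toNat p, h3]
      exact congrArg (fun q => p * q + (u + B).toNat % p) h
    omega

theorem card_intBox_class_le {p : ℕ} (S : Finset (Fin n → ZMod p)) (B : ℕ) :
    ((intBox n B).filter fun x => reduce p x ∈ S).card ≤ S.card * (2 * B / p + 1) ^ n := by
  rw [Finset.card_eq_sum_card_fiberwise (f := reduce p) (t := S)
    (s := (intBox n B).filter fun x => reduce p x ∈ S) fun x hx => (Finset.mem_filter.mp hx).2]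
  refine (Finset.sum_le_card_nsmul _ _ ((2 * B / p + 1) ^ n) fun c _ => ?_).trans_eq
    (smul_eq_mul _ _)
  calc (((intBox n B).filter fun x => reduce p x ∈ S).filter fun x => reduce p x = c).card
      ≤ (Fintype.piFinset fun i =>
          (Finset.Icc (-(B : ℤ)) B).filter fun t : ℤ => (t : ZMod p) = c i).card := by
        refine Finset.card_le_card fun x hx => Fintype.mem_piFinset.mpr fun i => ?_
        obtain ⟨hx, hc⟩ := Finset.mem_filter.mp hx
        exact Finset.mem_filter.mpr
          ⟨Fintype.mem_piFinset.mp (Finset.mem_filter.mp hx).1 i, congrFun hc i⟩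
    _ ≤ ∏ _i : Fin n, (2 * B / p + 1) := by
        rw [Fintype.card_piFinset]
        exact Finset.prod_le_prod' fun i _ => card_Icc_class_le _ B
    _ = _ := Fin.prod_const _ _

/-- A congruence class in a symmetric interval. -/
theorem tendsto_card_Icc_class {N : ℕ} [NeZero N] (c : ZMod N) :
    Tendsto (fun B : ℕ => (((Finset.Icc (-(B : ℤ)) B).filter fun t : ℤ => (t : ZMod N) = c).card :
      ℝ) / (2 * B + 1)) atTop (𝓝 (1 / (N : ℝ))) := by
  have hshift : ∀ B : ℕ, ((Finset.Icc (-(B : ℤ)) B).filter fun t : ℤ => (t : ZMod N) = c).card =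
      ((Finset.Ioc 0 (2 * B + 1)).filter fun u : ℕ => (u : ZMod N) = c + B + 1).card := fun B => by
    refine Finset.card_nbij' (fun t => (t + B + 1).toNat) (fun u => (u : ℤ) - B - 1)
      (fun t ht => ?_) (fun u hu => ?_) (fun t ht => ?_) fun u hu => ?_
    · obtain ⟨h1, h2⟩ := Finset.mem_filter.mp ht
      rw [Finset.mem_Icc] at h1
      refine Finset.mem_filter.mpr ⟨Finset.mem_Ioc.mpr
        ⟨show 0 < (t + B + 1).toNat by omega, show (t + B + 1).toNat ≤ 2 * B + 1 by omega⟩, ?_⟩
      rw [← Int.cast_natCast, Int.toNat_of_nonneg (by omega), ← h2]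
      push_cast
      ring
    · obtain ⟨h1, h2⟩ := Finset.mem_filter.mp hu
      rw [Finset.mem_Ioc] at h1
      refine Finset.mem_filter.mpr ⟨Finset.mem_Icc.mpr
        ⟨show -(B : ℤ) ≤ (u : ℤ) - B - 1 by omega, show (u : ℤ) - B - 1 ≤ B by omega⟩, ?_⟩
      push_cast
      rw [h2]
      ring
    · obtain ⟨h1, -⟩ := Finset.mem_filter.mp ht
      rw [Finset.mem_Icc] at h1
      show (((t + B + 1).toNat : ℕ) : ℤ) - B - 1 = t
      omega
    · show ((u : ℤ) - B - 1 + B + 1).toNat = u
      omega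
  refine tendsto_sub_nhds_zero_iff.mp (squeeze_zero_norm (a := fun B : ℕ => ∑ d : ZMod N,
    ‖(((Finset.Ioc 0 (2 * B + 1)).filter fun u : ℕ => (u : ZMod N) = d).card : ℝ) /
      ((2 * B + 1 : ℕ) : ℝ) - 1 / N‖) (fun B => ?_) ?_)
  · rw [hshift, show (2 * (B : ℝ) + 1) = ((2 * B + 1 : ℕ) : ℝ) by push_cast; rfl]
    exact Finset.single_le_sum (f := fun d : ZMod N => ‖(((Finset.Ioc 0 (2 * B + 1)).filter
      fun u : ℕ => (u : ZMod N) = d).card : ℝ) / ((2 * B + 1 : ℕ) : ℝ) - 1 / N‖)
      (fun d _ => norm_nonneg _) (Finset.mem_univ _)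
  · have h : Tendsto (fun B : ℕ => 2 * B + 1) atTop atTop :=
      tendsto_atTop_mono (fun B => (by omega : B ≤ 2 * B + 1)) tendsto_id
    simpa using tendsto_finsetSum Finset.univ fun (d : ZMod N) _ =>
      (tendsto_sub_nhds_zero_iff.mpr ((tendsto_card_class d).comp h)).norm

/-- **Congruence conditions in a box.** -/
theorem tendsto_intBox_classes {N : ℕ} [NeZero N] (S : Set (Fin n → ZMod N)) :
    Tendsto (fun B : ℕ =>
      (((intBox n B).filter fun x => reduce N x ∈ S).card : ℝ) / (2 * (B : ℝ) + 1) ^ n) atTop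
      (𝓝 (classDensity S)) := by
  have hcard : ∀ B : ℕ,
      (((intBox n B).filter fun x => reduce N x ∈ S).card : ℝ) / (2 * (B : ℝ) + 1) ^ n =
        ∑ c ∈ S.toFinset, ∏ i, ((((Finset.Icc (-(B : ℤ)) B).filter
          fun t : ℤ => (t : ZMod N) = c i).card : ℝ) / (2 * (B : ℝ) + 1)) := fun B => by
    rw [Finset.card_eq_sum_card_fiberwise (f := reduce N) (t := S.toFinset)
      fun w hw => Set.mem_toFinset.mpr (Finset.mem_filter.mp hw).2, Nat.cast_sum, Finset.sum_div]
    refine Finset.sum_congr rfl fun c hc => ?_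
    rw [Finset.prod_div_distrib, Finset.prod_const, Finset.card_univ, Fintype.card_fin,
      ← Nat.cast_prod, ← Fintype.card_piFinset]
    congr 3
    ext w
    simp only [Finset.mem_filter, intBox, Fintype.mem_piFinset]
    exact ⟨fun h i => ⟨h.1.1 i, congrFun h.2 i⟩, fun h => ⟨⟨fun i => (h i).1,
      (funext fun i => (h i).2 : reduce N w = c) ▸ Set.mem_toFinset.mp hc⟩,
      funext fun i => (h i).2⟩⟩
  simp only [hcard]
  have hval : classDensity S = ∑ c ∈ S.toFinset, ∏ _i : Fin n, 1 / (N : ℝ) := by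
    simp [classDensity, div_eq_mul_inv]
  rw [hval]
  exact tendsto_finsetSum _ fun c _ => tendsto_finsetProd _ fun i _ => tendsto_card_Icc_class _

/-- The zeros modulo `p` of a nonzero polynomial. -/
theorem card_zeros_mod_mul_le {p : ℕ} [Fact p.Prime] {R : MvPolynomial (Fin n) ℤ}
    (hR : R.map (Int.castRingHom (ZMod p)) ≠ 0) :
    (Finset.univ.filter fun u : Fin n → ZMod p =>
      MvPolynomial.eval u (R.map (Int.castRingHom (ZMod p))) = 0).card * p ≤
      R.totalDegree * p ^ n := by
  have h := FA.LangWeilAll.card_eval_zero_mul_le (RingHom.id (ZMod p)) hR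
  rw [Nat.card_zmod, Nat.card_eq_fintype_card, Fintype.card_subtype] at h
  exact h.trans (Nat.mul_le_mul_right _ (FA.LangWeilAll.totalDegree_map_le _ R))

/-- The integral zeros in a box. -/
theorem card_zeros_box_mul_le {R : MvPolynomial (Fin n) ℤ} (hR : R ≠ 0) (B : ℕ) :
    ((intBox n B).filter fun x => MvPolynomial.eval x R = 0).card * (2 * B + 1) ≤
      R.totalDegree * (2 * B + 1) ^ n := by
  have h := MvPolynomial.schwartz_zippel_totalDegree hR (Finset.Icc (-(B : ℤ)) B)
  rw [Int.card_Icc, show ((B : ℤ) + 1 - -(B : ℤ)).toNat = 2 * B + 1 by omega,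
    div_le_div_iff₀ (by positivity) (by positivity)] at h
  exact_mod_cast h

/-- The size of a value. -/
theorem natAbs_eval_le (R : MvPolynomial (Fin n) ℤ) {B : ℕ} (hB : 1 ≤ B) {x : Fin n → ℤ}
    (hx : x ∈ intBox n B) :
    (MvPolynomial.eval x R).natAbs ≤
      (∑ s ∈ R.support, (R.coeff s).natAbs) * B ^ R.totalDegree := by
  rw [MvPolynomial.eval_eq', Finset.sum_mul]
  refine (Int.natAbs_sum_le _ _).trans (Finset.sum_le_sum fun s hs => ?_)
  rw [Int.natAbs_mul, ← Int.natAbsHom_apply (∏ i, x i ^ s i), map_prod]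
  simp only [Int.natAbsHom_apply, Int.natAbs_pow]
  refine Nat.mul_le_mul_left _ ((Finset.prod_le_prod' fun i _ => Nat.pow_le_pow_left
    (?_ : (x i).natAbs ≤ B) _).trans ?_)
  · have := mem_intBox.mp hx i
    rw [Int.abs_eq_natAbs] at this
    exact_mod_cast this
  · rw [Finset.prod_pow_eq_pow_sum]
    refine Nat.pow_le_pow_right hB ?_
    rw [← Finsupp.sum_fintype s (fun _ l => l) fun _ => rfl]
    exact MvPolynomial.le_totalDegree hs

/-- **Few large prime divisors.** -/
theorem card_large_primes_le {v H d B : ℕ} (hv : v ≠ 0) (hB : 1 ≤ B) (h : v ≤ H * B ^ d) :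
    (v.primeFactors.filter (B < ·)).card ≤ d + H := by
  set T := v.primeFactors.filter (B < ·)
  by_contra! hlt
  have h1 : (B + 1) ^ T.card ≤ v := by
    refine le_trans ?_ (Nat.le_of_dvd (Nat.pos_of_ne_zero hv) (dvd_trans
      (Finset.prod_dvd_prod_of_subset T v.primeFactors id (Finset.filter_subset _ _))
      (Nat.prod_primeFactors_dvd v)))
    rw [← Finset.prod_const]
    exact Finset.prod_le_prod' fun p hp => (Finset.mem_filter.mp hp).2
  have h2 : (B + 1) ^ d * 2 ^ (H + 1) ≤ (B + 1) ^ T.card :=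
    calc (B + 1) ^ d * 2 ^ (H + 1) ≤ (B + 1) ^ d * (B + 1) ^ (H + 1) :=
          Nat.mul_le_mul_left _ (Nat.pow_le_pow_left (by omega) _)
      _ = (B + 1) ^ (d + (H + 1)) := (pow_add _ _ _).symm
      _ ≤ _ := Nat.pow_le_pow_right (Nat.succ_pos B) (by omega)
  have h3 : H + 1 < 2 ^ (H + 1) := Nat.lt_two_pow_self
  have h4 : H * B ^ d ≤ H * (B + 1) ^ d := Nat.mul_le_mul_left _ (Nat.pow_le_pow_left (by omega) _)
  have h5 : 0 < (B + 1) ^ d := pow_pos (Nat.succ_pos B) d
  nlinarith

end FA.Ekedahl
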