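import Fermat.Agent.Ekedahl.Bound
import Mathlib.NumberTheory.SmoothNumbers

/-!
# The density of coprime values

The finitely many primes below `M` are congruence conditions and Ekedahl's bound disposes of the
others, so the density is the product of the local ones, and the tail of the product is near `1`.
-/

set_option autoImplicit false
set_option linter.style.openClassical false
set_option linter.style.haveILetI false

noncomputable section

open Filter
open scoped Classical Topology

namespace FA.Ekedahl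

open MvPolynomial FA.ThinSets FA.DiagonalDensity

variable {n : ℕ} (f g : MvPolynomial (Fin n) ℤ)

/-- The classes at which `N` does not divide both values. -/
def goodClasses (N : ℕ) : Set (Fin n → ZMod N) :=
  {c | ¬(eval c (f.map (Int.castRingHom (ZMod N))) = 0 ∧
    eval c (g.map (Int.castRingHom (ZMod N))) = 0)}

/-- The common zeros modulo `p`. -/
def commonZeros (p : ℕ) : ℕ :=
  Nat.card {c : Fin n → ZMod p // eval c (f.map (Int.castRingHom (ZMod p))) = 0 ∧
    eval c (g.map (Int.castRingHom (ZMod p))) = 0}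

/-- The density of the points at which `p` does not divide both values. -/
def localFactor (p : ℕ) : ℝ := 1 - (commonZeros f g p : ℝ) / (p : ℝ) ^ n

/-- The product of the local densities up to `P`. -/
def partialProduct (P : ℕ) : ℝ := ∏ p ∈ (P + 1).primesBelow, localFactor f g p

/-- The product of all local densities. -/
def coprimeDensity : ℝ := ⨅ P, partialProduct f g P

/-- The points coprime at the primes of `T`. -/
def coprimeAt (T : Finset ℕ) (B : ℕ) : Finset (Fin n → ℤ) :=
  (intBox n B).filter fun x => ∀ p ∈ T, ¬((p : ℤ) ∣ eval x f ∧ (p : ℤ) ∣ eval x g)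

/-- The points with coprime values. -/
def coprimePoints (B : ℕ) : Finset (Fin n → ℤ) :=
  (intBox n B).filter fun x => Int.gcd (eval x f) (eval x g) = 1

variable {f g}

theorem reduce_mem_goodClasses {N : ℕ} {x : Fin n → ℤ} :
    reduce N x ∈ goodClasses f g N ↔ ¬((N : ℤ) ∣ eval x f ∧ (N : ℤ) ∣ eval x g) := by
  have h : ∀ q : MvPolynomial (Fin n) ℤ,
      eval (reduce N x) (q.map (Int.castRingHom (ZMod N))) = 0 ↔ (N : ℤ) ∣ eval x q := fun q => by
    rw [eval_map, show reduce N x = (Int.castRingHom (ZMod N)) ∘ x from rfl, ← eval₂_comp,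
      eq_intCast, ZMod.intCast_zmod_eq_zero_iff_dvd]
  simp only [goodClasses, Set.mem_ofPred_eq, h]

theorem classDensity_goodClasses {N : ℕ} [NeZero N] :
    classDensity (goodClasses f g N) = localFactor f g N := by
  have h := Fintype.card_subtype_compl fun c : Fin n → ZMod N =>
    eval c (f.map (Int.castRingHom (ZMod N))) = 0 ∧ eval c (g.map (Int.castRingHom (ZMod N))) = 0
  rw [classDensity, localFactor, commonZeros, Nat.card_eq_fintype_card, Nat.card_eq_fintype_card,
    Fintype.card_congr (Equiv.setCongr (rfl : goodClasses f g N = _)),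
    eq_sub_iff_add_eq, ← add_div, div_eq_one_iff_eq (pow_ne_zero _ (NeZero.ne _))]
  have hle := Fintype.card_subtype_le fun c : Fin n → ZMod N =>
    eval c (f.map (Int.castRingHom (ZMod N))) = 0 ∧ eval c (g.map (Int.castRingHom (ZMod N))) = 0
  rw [← Nat.cast_add, ← Nat.cast_pow, Nat.cast_inj]
  have hN : Fintype.card (Fin n → ZMod N) = N ^ n := by simp
  rw [← hN]
  calc _ = (Fintype.card (Fin n → ZMod N) - _) + _ := congrArg₂ (· + ·) (Eq.trans (by
        exact Fintype.card_congr (Equiv.subtypeEquivRight fun c => Iff.rfl)) h) rfl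
    _ = _ := Nat.sub_add_cancel hle

theorem localFactor_nonneg {p : ℕ} (hp : p.Prime) : 0 ≤ localFactor f g p := by
  haveI : NeZero p := ⟨hp.ne_zero⟩
  rw [← classDensity_goodClasses]
  unfold classDensity
  positivity

theorem localFactor_le_one (p : ℕ) : localFactor f g p ≤ 1 :=
  sub_le_self _ (by positivity)

theorem partialProduct_nonneg (P : ℕ) : 0 ≤ partialProduct f g P :=
  Finset.prod_nonneg fun _ hp => localFactor_nonneg (Nat.prime_of_mem_primesBelow hp)

theorem tendsto_partialProduct :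
    Tendsto (partialProduct f g) atTop (𝓝 (coprimeDensity f g)) := by
  refine tendsto_atTop_ciInf (fun P Q hPQ => ?_)
    ⟨0, by rintro x ⟨P, rfl⟩; exact partialProduct_nonneg P⟩
  have hsub : (P + 1).primesBelow ⊆ (Q + 1).primesBelow := fun p hp => by
    rw [Nat.mem_primesBelow] at hp ⊢
    exact ⟨by omega, hp.2⟩
  unfold partialProduct
  rw [← Finset.prod_sdiff hsub]
  exact mul_le_of_le_one_left (partialProduct_nonneg P)
    (Finset.prod_le_one (fun p hp => localFactor_nonneg
      (Nat.prime_of_mem_primesBelow (Finset.mem_sdiff.mp hp).1)) fun p _ => localFactor_le_one p)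

/-- **Finitely many primes.** -/
theorem tendsto_coprimeAt {T : Finset ℕ} (hT : ∀ p ∈ T, p.Prime) :
    Tendsto (fun B : ℕ => ((coprimeAt f g T B).card : ℝ) / (2 * (B : ℝ) + 1) ^ n) atTop
      (𝓝 (∏ p ∈ T, localFactor f g p)) := by
  obtain ⟨N, hN, S, -, hSd, hS⟩ := exists_classes 1 T hT fun p => goodClasses f g (p ^ 1)
  have h := tendsto_intBox_classes S
  rw [hSd, Finset.prod_congr rfl fun p hp => show classDensity (goodClasses f g (p ^ 1)) =
    localFactor f g p by
      haveI : NeZero p := ⟨(hT p hp).ne_zero⟩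
      rw [pow_one, classDensity_goodClasses]] at h
  refine h.congr fun B => ?_
  congr 3
  ext x
  simp only [coprimeAt, Finset.mem_filter, hS, reduce_mem_goodClasses, pow_one]

theorem tendsto_error (hn : 0 < n) (K : ℝ) (M : ℕ) :
    Tendsto (fun B : ℕ => K * ((B : ℝ) ^ n / M + (B : ℝ) ^ (n - 1)) / (2 * (B : ℝ) + 1) ^ n) atTop
      (𝓝 (K * (1 / 2) ^ n / M)) := by
  have h1 : Tendsto (fun B : ℕ => (B : ℝ) / (2 * B + 1)) atTop (𝓝 (1 / 2)) := by
    have := (tendsto_natCast_div_add_atTop (1 / 2 : ℝ)).div_const 2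
    refine this.congr fun B => ?_
    rw [div_div]
    congr 1
    ring
  have h2 : Tendsto (fun B : ℕ => 1 / (2 * (B : ℝ) + 1)) atTop (𝓝 0) :=
    tendsto_const_nhds.div_atTop (tendsto_atTop_add_const_right _ _
      (tendsto_natCast_atTop_atTop.const_mul_atTop two_pos))
  have h := ((h1.pow n).div_const (M : ℝ)).add ((h1.pow (n - 1)).mul h2) |>.const_mul K
  rw [mul_zero, add_zero, ← mul_div_assoc] at h
  refine h.congr fun B => ?_
  rw [mul_div_assoc, add_div]
  congr 1
  rw [div_pow, div_pow, div_mul_div_comm, mul_one, ← pow_succ, Nat.sub_add_cancel hn,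
    div_right_comm]

theorem mem_or_mem_badPoints {M B : ℕ} {x : Fin n → ℤ} (hx : x ∈ intBox n B) {T : Finset ℕ}
    (hT : ∀ p ∈ T, p.Prime ∧ M < p) :
    x ∈ coprimeAt f g T B ∨ x ∈ badPoints f g M B := by
  by_cases h : ∀ p ∈ T, ¬((p : ℤ) ∣ eval x f ∧ (p : ℤ) ∣ eval x g)
  · exact Or.inl (Finset.mem_filter.mpr ⟨hx, h⟩)
  · push Not at h
    obtain ⟨p, hp, h1, h2⟩ := h
    exact Or.inr (Finset.mem_filter.mpr ⟨hx, p, (hT p hp).1, (hT p hp).2, h1, h2⟩)

theorem mem_coprimePoints_iff {B : ℕ} {x : Fin n → ℤ} :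
    x ∈ coprimePoints f g B ↔
      x ∈ intBox n B ∧ ∀ p : ℕ, p.Prime → ¬((p : ℤ) ∣ eval x f ∧ (p : ℤ) ∣ eval x g) := by
  rw [coprimePoints, Finset.mem_filter, Int.gcd_eq_natAbs_gcd_natAbs]
  refine and_congr_right fun _ => ⟨fun h p hp hd => ?_, fun h => ?_⟩
  · exact Nat.Prime.not_coprime_iff_dvd.mpr
      ⟨p, hp, Int.natCast_dvd.mp hd.1, Int.natCast_dvd.mp hd.2⟩ h
  · by_contra hne
    obtain ⟨p, hp, h1, h2⟩ := Nat.Prime.not_coprime_iff_dvd.mp hne
    exact h p hp ⟨Int.natCast_dvd.mpr h1, Int.natCast_dvd.mpr h2⟩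

/-- **The density of coprime values.** -/
theorem tendsto_coprimePoints (hn : 0 < n)
    (hfg : IsRelPrime (f.map (Int.castRingHom ℚ)) (g.map (Int.castRingHom ℚ))) :
    Tendsto (fun B : ℕ => ((coprimePoints f g B).card : ℝ) / (2 * (B : ℝ) + 1) ^ n) atTop
      (𝓝 (coprimeDensity f g)) := by
  obtain ⟨K, hK, hbound⟩ := exists_bound f g hfg
  rw [Metric.tendsto_atTop]
  intro ε hε
  obtain ⟨P, hP1, hP2, hP3⟩ : ∃ P : ℕ, 1 ≤ P ∧
      dist (partialProduct f g P) (coprimeDensity f g) < ε / 3 ∧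
        K * (1 / 2) ^ n / (P : ℝ) < ε / 6 :=
    ((eventually_ge_atTop _).and ((tendsto_partialProduct.eventually
      (Metric.ball_mem_nhds _ (by positivity))).and
      ((tendsto_const_div_atTop_nhds_zero_nat (K * (1 / 2) ^ n)).eventually
        (Iio_mem_nhds (by positivity))))).exists
  obtain ⟨B₀, hB₀⟩ := Metric.tendsto_atTop.mp (tendsto_coprimeAt (f := f) (g := g)
    (T := (P + 1).primesBelow) (fun p hp => Nat.prime_of_mem_primesBelow hp)) (ε / 3)
    (by positivity)
  obtain ⟨B₁, hB₁⟩ := eventually_atTop.mp ((tendsto_error hn K P).eventually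
    (Iio_mem_nhds (hP3.trans (by linarith : ε / 6 < ε / 3))))
  refine ⟨max (max B₀ B₁) 1, fun B hB => ?_⟩
  have hD : (0 : ℝ) < (2 * (B : ℝ) + 1) ^ n := by positivity
  have h1 : coprimePoints f g B ⊆ coprimeAt f g (P + 1).primesBelow B := fun x hx => by
    obtain ⟨hx, h⟩ := mem_coprimePoints_iff.mp hx
    exact Finset.mem_filter.mpr ⟨hx, fun p hp => h p (Nat.prime_of_mem_primesBelow hp)⟩
  have h2 : coprimeAt f g (P + 1).primesBelow B ⊆ coprimePoints f g B ∪ badPoints f g P B :=
    fun x hx => by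
    obtain ⟨hx, h⟩ := Finset.mem_filter.mp hx
    by_cases hb : x ∈ badPoints f g P B
    · exact Finset.mem_union_right _ hb
    refine Finset.mem_union_left _ (mem_coprimePoints_iff.mpr ⟨hx, fun p hp hd => ?_⟩)
    rcases le_or_gt p P with hle | hlt
    · exact h p (Nat.mem_primesBelow.mpr ⟨Nat.lt_succ_of_le hle, hp⟩) hd
    · exact hb (Finset.mem_filter.mpr ⟨hx, p, hp, hlt, hd⟩)
  have h4 := div_le_div_of_nonneg_right (c := (2 * (B : ℝ) + 1) ^ n)
    (Nat.cast_le (α := ℝ).mpr (Finset.card_le_card h1)) hD.le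
  have h5 := div_le_div_of_nonneg_right (c := (2 * (B : ℝ) + 1) ^ n) (Nat.cast_le (α := ℝ).mpr
    ((Finset.card_le_card h2).trans (Finset.card_union_le _ _))) hD.le
  rw [Nat.cast_add, add_div] at h5
  have h6 := div_le_div_of_nonneg_right (c := (2 * (B : ℝ) + 1) ^ n)
    (hbound P B hP1 (le_of_max_le_right hB)) hD.le
  have h7 := hB₁ B (le_trans (le_max_right _ _) (le_of_max_le_left hB))
  have h8 := abs_lt.mp ((Real.dist_eq _ _).symm.trans_lt
    (hB₀ B (le_trans (le_max_left _ _) (le_of_max_le_left hB))))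
  have h9 := abs_lt.mp ((Real.dist_eq _ _).symm.trans_lt hP2)
  unfold partialProduct at h9
  rw [Real.dist_eq, abs_lt]
  constructor <;> linarith

/-- **The product is positive** unless a prime divides all common values. -/
theorem coprimeDensity_pos (hn : 0 < n)
    (hfg : IsRelPrime (f.map (Int.castRingHom ℚ)) (g.map (Int.castRingHom ℚ)))
    (hno : ∀ p : ℕ, p.Prime → ∃ x : Fin n → ℤ, ¬((p : ℤ) ∣ eval x f ∧ (p : ℤ) ∣ eval x g)) :
    0 < coprimeDensity f g := by
  obtain ⟨K, hK, hbound⟩ := exists_bound f g hfg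
  obtain ⟨M, hM1, hM2⟩ : ∃ M : ℕ, 1 ≤ M ∧ K * (1 / 2) ^ n / (M : ℝ) < 1 / 2 :=
    ((eventually_ge_atTop _).and
      ((tendsto_const_div_atTop_nhds_zero_nat (K * (1 / 2) ^ n)).eventually
        (Iio_mem_nhds (by positivity)))).exists
  have hfac : ∀ p : ℕ, p.Prime → 0 < localFactor f g p := fun p hp => by
    haveI : NeZero p := ⟨hp.ne_zero⟩
    obtain ⟨x, hx⟩ := hno p hp
    rw [← classDensity_goodClasses]
    haveI : Nonempty (goodClasses f g p) := ⟨⟨_, reduce_mem_goodClasses.mpr hx⟩⟩
    have h0 : 0 < Nat.card (goodClasses f g p) := Nat.card_pos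
    exact div_pos (Nat.cast_pos.mpr h0) (pow_pos (Nat.cast_pos.mpr hp.pos) n)
  have hpos : 0 < partialProduct f g M :=
    Finset.prod_pos fun p hp => hfac p (Nat.prime_of_mem_primesBelow hp)
  refine lt_of_lt_of_le (mul_pos hpos one_half_pos)
    (ge_of_tendsto tendsto_partialProduct (eventually_atTop.mpr ⟨M, fun P hP => ?_⟩))
  have hsub : (M + 1).primesBelow ⊆ (P + 1).primesBelow := fun p hp => by
    rw [Nat.mem_primesBelow] at hp ⊢
    exact ⟨by omega, hp.2⟩
  conv_rhs => rw [partialProduct, ← Finset.prod_sdiff hsub, mul_comm]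
  refine mul_le_mul_of_nonneg_left ?_ hpos.le
  set T := (P + 1).primesBelow \ (M + 1).primesBelow
  have hT : ∀ p ∈ T, p.Prime ∧ M < p := fun p hp => by
    obtain ⟨hp1, hp2⟩ := Finset.mem_sdiff.mp hp
    refine ⟨Nat.prime_of_mem_primesBelow hp1, ?_⟩
    by_contra hlt
    exact hp2 (Nat.mem_primesBelow.mpr ⟨by omega, Nat.prime_of_mem_primesBelow hp1⟩)
  refine (show (1 : ℝ) / 2 ≤ 1 - K * (1 / 2) ^ n / M by linarith).trans ?_
  refine le_of_tendsto_of_tendsto ((tendsto_error hn K M).const_sub 1)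
    (tendsto_coprimeAt fun p hp => (hT p hp).1) (eventually_atTop.mpr ⟨1, fun B hB => ?_⟩)
  have hD : (0 : ℝ) < (2 * (B : ℝ) + 1) ^ n := by positivity
  rw [sub_le_iff_le_add, ← add_div, le_div_iff₀ hD, one_mul]
  have hcov : intBox n B ⊆ coprimeAt f g T B ∪ badPoints f g M B := fun x hx =>
    Finset.mem_union.mpr (mem_or_mem_badPoints hx hT)
  have h := (Nat.cast_le (α := ℝ)).mpr
    ((Finset.card_le_card hcov).trans (Finset.card_union_le _ _))
  rw [natCard_intBox, Nat.cast_add] at h
  exact h.trans (add_le_add le_rfl (hbound M B hM1 hB))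

theorem coprimeDensity_eq_zero {p : ℕ} (hp : p.Prime)
    (hall : ∀ x : Fin n → ℤ, (p : ℤ) ∣ eval x f ∧ (p : ℤ) ∣ eval x g) :
    coprimeDensity f g = 0 := by
  haveI : NeZero p := ⟨hp.ne_zero⟩
  have h0 : localFactor f g p = 0 := by
    have hempty : goodClasses f g p = ∅ := Set.eq_empty_of_forall_notMem fun c hc => by
      have e : reduce p (fun i => ((c i).val : ℤ)) = c := funext fun i => by simp [reduce]
      rw [← e, reduce_mem_goodClasses] at hc
      exact hc (hall _)
    rw [← classDensity_goodClasses, hempty, classDensity]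
    simp
  refine le_antisymm ?_ (le_ciInf partialProduct_nonneg)
  refine (ciInf_le ⟨0, by rintro x ⟨P, rfl⟩; exact partialProduct_nonneg P⟩ p).trans_eq ?_
  exact Finset.prod_eq_zero (Nat.mem_primesBelow.mpr ⟨Nat.lt_succ_self p, hp⟩) h0

end FA.Ekedahl
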